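import Fermat.Agent.LT.A2.H54.LocFinSpec
import Fermat.Agent.LT.H11.LC

/-!
# Row LT, tower A2, leaf A2.03.1.1.06.03 `LF54.LeafFtSb` (helper709, registry row 1580)

OFF-MAIN.  Imports: `A2/H54/LocFinSpec.lean` (helper54@26071c838, sha256 8ccd9c5c, byte copy) and
`H11/LC.lean` (helper11, byte copy: `K_v` is locally compact).

`leafFtSb709 : LeafFtSb` VERBATIM: the Fourier transform `ξ ↦ ∫ Φ(y) ψ(B(ξ, y)) dy` of a
Schwartz--Bruhat function on `K_v²` is Schwartz--Bruhat.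

General form `ftSbP_general709`: any ultrametric proper normed field `k`.  No lattices:
* `Φ` is UNIFORMLY locally constant (`sb_uniform709`, Lebesgue number) with bounded support;
* `ψ` is trivial on a ball around `0` (`psi_trivial_near709`: the `2ⁿ`-th powers of a point
  `z ≠ 1` of the unit circle leave the ball `‖z - 1‖ < 1`, `circle_eq_one709`);
* `FT Φ (ξ + ζ) = FT Φ ξ` for small `ζ` (`ψ(B(ζ, y)) = 1` on the support of `Φ`);
* `FT Φ ξ = ψ(B(ξ, l)) FT Φ ξ` for small `l` (translation invariance of the integral), so on the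
  support of `FT Φ` the two linear forms `2ξ₁ + tξ₂`, `tξ₁ + 2nξ₂` are bounded by `‖x₀‖ / δ`
  (`ψ x₀ ≠ 1`), and `ξ` is bounded because `t² - 4n ≠ 0`.
Reusable: `intL_translate709`, `intL_mul_const709`, `psi_bfL_eq_one709`, `bfL_eq709`,
`properSpace_adicCompletion709`.
-/

set_option autoImplicit false
set_option linter.style.haveILetI false


open IsDedekindDomain NumberField MeasureTheory
open scoped Topology

noncomputable section

namespace Fermat.Agent.LT.A2.H709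

open Fermat.Agent.LT.A2 Fermat.Agent.LT.A2.WX467 Fermat.Agent.LT.A2.LF54

/-! ## 1. A point of the unit circle whose `2ⁿ`-th powers stay near `1` is `1` -/

theorem norm_sq_sub_one_ge709 {w : ℂ} (hw : ‖w‖ = 1) (h : ‖w - 1‖ < 1) :
    3 / 2 * ‖w - 1‖ ≤ ‖w ^ 2 - 1‖ := by
  have hpar := parallelogram_law_with_norm ℝ w 1
  rw [hw, norm_one] at hpar
  have h0 : 0 ≤ ‖w - 1‖ := norm_nonneg _
  have h1 : 0 ≤ ‖w + 1‖ := norm_nonneg _
  have h2 : (3 / 2 : ℝ) ≤ ‖w + 1‖ := by nlinarith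
  have h3 : w ^ 2 - 1 = (w - 1) * (w + 1) := by ring
  rw [h3, norm_mul]
  nlinarith

theorem circle_eq_one709 {z : ℂ} (hz : ‖z‖ = 1) (h : ∀ n : ℕ, ‖z ^ (2 ^ n) - 1‖ < 1) :
    z = 1 := by
  have hstep : ∀ n : ℕ, (3 / 2 : ℝ) ^ n * ‖z - 1‖ ≤ ‖z ^ (2 ^ n) - 1‖ := by
    intro n
    induction n with
    | zero => simp
    | succ n ih =>
      have hw : ‖z ^ (2 ^ n)‖ = 1 := by rw [norm_pow, hz, one_pow]
      have h1 := norm_sq_sub_one_ge709 hw (h n)
      have h2 : (z ^ (2 ^ n)) ^ 2 = z ^ (2 ^ (n + 1)) := by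
        rw [← pow_mul, pow_succ]
      rw [h2] at h1
      calc (3 / 2 : ℝ) ^ (n + 1) * ‖z - 1‖ = 3 / 2 * ((3 / 2 : ℝ) ^ n * ‖z - 1‖) := by ring
        _ ≤ 3 / 2 * ‖z ^ (2 ^ n) - 1‖ := by gcongr
        _ ≤ _ := h1
  by_contra hne
  have hpos : 0 < ‖z - 1‖ := norm_pos_iff.2 (sub_ne_zero.2 hne)
  obtain ⟨n, hn⟩ := pow_unbounded_of_one_lt (1 / ‖z - 1‖) (by norm_num : (1 : ℝ) < 3 / 2)
  have h1 := hstep n
  have h2 := h n
  have h3 : 1 < (3 / 2 : ℝ) ^ n * ‖z - 1‖ := by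
    rw [div_lt_iff₀ hpos] at hn
    exact hn
  linarith


/-! ## 2. General facts (`k` a normed field) -/

section General

variable {k : Type} [NormedField k]

theorem bfL_eq709 (t n : k) (ξ y : k × k) :
    bfL t n ξ y = 2 * ξ.1 * y.1 + t * (ξ.1 * y.2 + ξ.2 * y.1) + 2 * n * ξ.2 * y.2 := by
  unfold bfL qfL
  simp only [Prod.fst_add, Prod.snd_add]
  ring

theorem bfL_add_left709 (t n : k) (ξ ζ y : k × k) :
    bfL t n (ξ + ζ) y = bfL t n ξ y + bfL t n ζ y := by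
  simp only [bfL_eq709, Prod.fst_add, Prod.snd_add]
  ring

theorem bfL_add_right709 (t n : k) (ξ y z : k × k) :
    bfL t n ξ (y + z) = bfL t n ξ y + bfL t n ξ z := by
  simp only [bfL_eq709, Prod.fst_add, Prod.snd_add]
  ring

theorem norm_bfL_le709 (t n : k) (ξ y : k × k) :
    ‖bfL t n ξ y‖ ≤ (‖(2 : k)‖ + 2 * ‖t‖ + ‖2 * n‖) * (‖ξ‖ * ‖y‖) := by
  rw [bfL_eq709]
  have h1 : ‖ξ.1‖ ≤ ‖ξ‖ := norm_fst_le ξ
  have h2 : ‖ξ.2‖ ≤ ‖ξ‖ := norm_snd_le ξ
  have h3 : ‖y.1‖ ≤ ‖y‖ := norm_fst_le y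
  have h4 : ‖y.2‖ ≤ ‖y‖ := norm_snd_le y
  have hξ : 0 ≤ ‖ξ‖ := norm_nonneg _
  have hy : 0 ≤ ‖y‖ := norm_nonneg _
  have e1 : ‖2 * ξ.1 * y.1‖ ≤ ‖(2 : k)‖ * (‖ξ‖ * ‖y‖) := by
    rw [norm_mul, norm_mul, mul_assoc]
    gcongr
  have e2 : ‖t * (ξ.1 * y.2 + ξ.2 * y.1)‖ ≤ 2 * ‖t‖ * (‖ξ‖ * ‖y‖) := by
    rw [norm_mul]
    have : ‖ξ.1 * y.2 + ξ.2 * y.1‖ ≤ ‖ξ‖ * ‖y‖ + ‖ξ‖ * ‖y‖ := by
      refine (norm_add_le _ _).trans ?_
      rw [norm_mul, norm_mul]
      gcongr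
    calc ‖t‖ * ‖ξ.1 * y.2 + ξ.2 * y.1‖ ≤ ‖t‖ * (‖ξ‖ * ‖y‖ + ‖ξ‖ * ‖y‖) := by gcongr
      _ = 2 * ‖t‖ * (‖ξ‖ * ‖y‖) := by ring
  have e3 : ‖2 * n * ξ.2 * y.2‖ ≤ ‖2 * n‖ * (‖ξ‖ * ‖y‖) := by
    rw [norm_mul, norm_mul, mul_assoc]
    gcongr
  calc ‖2 * ξ.1 * y.1 + t * (ξ.1 * y.2 + ξ.2 * y.1) + 2 * n * ξ.2 * y.2‖
      ≤ ‖2 * ξ.1 * y.1‖ + ‖t * (ξ.1 * y.2 + ξ.2 * y.1)‖ + ‖2 * n * ξ.2 * y.2‖ :=
        norm_add₃_le
    _ ≤ _ := by linarith

theorem psi_zero709 {ψ : k → ℂ} (hψ : IsCharL ψ) : ψ 0 = 1 := by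
  have h1 := hψ.2.1 0 0
  rw [add_zero] at h1
  have h2 : ψ 0 ≠ 0 := by
    intro h
    have := hψ.2.2.1 0
    rw [h, norm_zero] at this
    exact zero_ne_one this
  exact (mul_right_cancel₀ h2 (by rw [one_mul]; exact h1)).symm

theorem psi_nsmul709 {ψ : k → ℂ} (hψ : IsCharL ψ) (m : ℕ) (x : k) :
    ψ ((m : k) * x) = ψ x ^ m := by
  induction m with
  | zero => simp [psi_zero709 hψ]
  | succ m ih =>
    have : ((m + 1 : ℕ) : k) * x = (m : k) * x + x := by push_cast; ring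
    rw [this, hψ.2.1, ih, pow_succ]

/-- A continuous unitary character of a non-archimedean field is trivial near `0`. -/
theorem psi_trivial_near709 [IsUltrametricDist k] {ψ : k → ℂ} (hψ : IsCharL ψ) :
    ∃ ε : ℝ, 0 < ε ∧ ∀ x : k, ‖x‖ < ε → ψ x = 1 := by
  have hc : ContinuousAt ψ 0 := hψ.1.continuousAt
  rw [Metric.continuousAt_iff] at hc
  obtain ⟨ε, hε, h⟩ := hc 1 one_pos
  refine ⟨ε, hε, fun x hx => ?_⟩
  refine circle_eq_one709 (hψ.2.2.1 x) fun m => ?_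
  have h1 : ‖((2 ^ m : ℕ) : k) * x‖ < ε := by
    rw [norm_mul]
    have := IsUltrametricDist.norm_natCast_le_one k (2 ^ m)
    calc ‖((2 ^ m : ℕ) : k)‖ * ‖x‖ ≤ 1 * ‖x‖ := by gcongr
      _ = ‖x‖ := one_mul _
      _ < ε := hx
  have h2 := h (x := ((2 ^ m : ℕ) : k) * x) (by rwa [dist_zero_right])
  rw [psi_zero709 hψ, psi_nsmul709 hψ, dist_eq_norm] at h2
  exact h2

/-- A Schwartz--Bruhat function is uniformly locally constant. -/
theorem sb_uniform709 {Φ : k × k → ℂ} (hΦ : IsSB Φ) :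
    ∃ δ : ℝ, 0 < δ ∧ ∀ y z : k × k, dist y z < δ → Φ y = Φ z := by
  have hcomp : IsCompact (tsupport Φ) := hΦ.2
  obtain ⟨δ, hδ, h⟩ := lebesgue_number_lemma_of_metric (s := tsupport Φ)
    (c := fun y : k × k => {z | Φ z = Φ y}) hcomp
    (fun y => hΦ.1.isOpen_fiber (Φ y)) (fun y _ => Set.mem_iUnion.2 ⟨y, rfl⟩)
  have key : ∀ y ∈ tsupport Φ, ∀ z : k × k, dist y z < δ → Φ y = Φ z := by
    intro y hy z hyz
    obtain ⟨i, hi⟩ := h y hy
    have h1 : Φ y = Φ i := hi (Metric.mem_ball_self hδ)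
    have h2 : Φ z = Φ i := hi (by rw [Metric.mem_ball, dist_comm]; exact hyz)
    rw [h1, h2]
  refine ⟨δ, hδ, fun y z hyz => ?_⟩
  by_cases hy : y ∈ tsupport Φ
  · exact key y hy z hyz
  · by_cases hz : z ∈ tsupport Φ
    · exact (key z hz y (by rwa [dist_comm])).symm
    · rw [image_eq_zero_of_notMem_tsupport hy, image_eq_zero_of_notMem_tsupport hz]

theorem sb_bounded709 {Φ : k × k → ℂ} (hΦ : IsSB Φ) :
    ∃ R : ℝ, 0 < R ∧ ∀ y : k × k, Φ y ≠ 0 → ‖y‖ ≤ R := by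
  have hb : Bornology.IsBounded (tsupport Φ) := hΦ.2.isBounded
  obtain ⟨R, hR⟩ := hb.subset_closedBall 0
  refine ⟨max R 1, lt_max_of_lt_right one_pos, fun y hy => ?_⟩
  have h1 : y ∈ tsupport Φ := subset_tsupport Φ hy
  have h2 := hR h1
  rw [mem_closedBall_zero_iff] at h2
  exact h2.trans (le_max_left _ _)


/-- The Fourier transform of a Schwartz--Bruhat function is locally constant. -/
theorem ft_locallyConstant709 [IsUltrametricDist k] {t n : k} {ψ : k → ℂ}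
    (μ : @Measure k (borel k)) (hψ : IsCharL ψ) {Φ : k × k → ℂ} (hΦ : IsSB Φ) :
    IsLocallyConstant (ftL t n ψ μ Φ) := by
  obtain ⟨ε, hε, hψε⟩ := psi_trivial_near709 hψ
  obtain ⟨R, hR, hΦR⟩ := sb_bounded709 hΦ
  set C : ℝ := ‖(2 : k)‖ + 2 * ‖t‖ + ‖2 * n‖ + 1 with hC
  have hCpos : 0 < C := by positivity
  have hinv : ∀ ξ ζ : k × k, ‖ζ‖ < ε / (C * R) → ftL t n ψ μ Φ (ξ + ζ) = ftL t n ψ μ Φ ξ := by
    intro ξ ζ hζ
    unfold ftL
    congr 1
    funext y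
    by_cases hy : Φ y = 0
    · rw [hy, zero_mul, zero_mul]
    · have hyR := hΦR y hy
      have h1 : ‖bfL t n ζ y‖ < ε := by
        have h2 := norm_bfL_le709 t n ζ y
        have h3 : ‖ζ‖ * ‖y‖ ≤ ‖ζ‖ * R := by gcongr
        have h4 : ‖ζ‖ * (C * R) < ε := by
          rwa [lt_div_iff₀ (by positivity)] at hζ
        have h5 : 0 ≤ ‖ζ‖ * ‖y‖ := by positivity
        have h6 : 0 ≤ ‖ζ‖ * R := by positivity
        calc ‖bfL t n ζ y‖ ≤ (‖(2 : k)‖ + 2 * ‖t‖ + ‖2 * n‖) * (‖ζ‖ * ‖y‖) := h2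
          _ ≤ C * (‖ζ‖ * ‖y‖) := by
              rw [hC]; nlinarith [norm_nonneg (2 : k), norm_nonneg t, norm_nonneg (2 * n)]
          _ ≤ C * (‖ζ‖ * R) := by gcongr
          _ = ‖ζ‖ * (C * R) := by ring
          _ < ε := h4
      rw [bfL_add_left709, hψ.2.1, hψε _ h1, mul_one]
  rw [IsLocallyConstant.iff_eventually_eq]
  intro ξ
  have hpos : 0 < ε / (C * R) := by positivity
  filter_upwards [Metric.ball_mem_nhds ξ hpos] with ξ' hξ'
  have h1 : ξ' = ξ + (ξ' - ξ) := by ring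
  rw [h1]
  refine hinv ξ (ξ' - ξ) ?_
  rwa [Metric.mem_ball, dist_eq_norm] at hξ'


/-- The integral over `k²` is invariant under translations. -/
theorem intL_translate709 [ProperSpace k] (μ : @Measure k (borel k)) (hμ : IsHaarL μ)
    (f : k × k → ℂ) (l : k × k) : intL μ (fun y => f (y + l)) = intL μ f := by
  letI : MeasurableSpace k := borel k
  haveI : BorelSpace k := ⟨rfl⟩
  haveI hinv : μ.IsAddLeftInvariant := by
    refine ⟨fun x => ?_⟩
    ext s hs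
    rw [Measure.map_apply (measurable_const_add x) hs]
    have h1 : (fun y => x + y) ⁻¹' s = (fun y => -x + y) '' s := by
      ext y
      simp only [Set.mem_preimage, Set.mem_image]
      constructor
      · intro hy
        exact ⟨x + y, hy, by ring⟩
      · rintro ⟨z, hz, rfl⟩
        have : x + (-x + z) = z := by ring
        rwa [this]
    rw [h1]
    exact hμ.1 (-x) s
  haveI : IsFiniteMeasureOnCompacts μ := ⟨fun C hC => hμ.2.1 C hC⟩
  haveI : SigmaFinite μ := inferInstance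
  haveI : (μ.prod μ).IsAddRightInvariant := inferInstance
  exact integral_add_right_eq_self (μ := μ.prod μ) f l


theorem intL_mul_const709 (μ : @Measure k (borel k)) (f : k × k → ℂ) (c : ℂ) :
    intL μ (fun y => f y * c) = intL μ f * c := by
  letI : MeasurableSpace k := borel k
  exact integral_mul_const c f

/-- Where the Fourier transform does not vanish, `ψ(B(ξ, l)) = 1` for all small `l`. -/
theorem psi_bfL_eq_one709 [ProperSpace k] {t n : k} {ψ : k → ℂ} {μ : @Measure k (borel k)}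
    (h : Ctx t n ψ μ) {Φ : k × k → ℂ} {δ : ℝ}
    (hδ : ∀ y z : k × k, dist y z < δ → Φ y = Φ z) {ξ : k × k}
    (hξ : ftL t n ψ μ Φ ξ ≠ 0) (l : k × k) (hl : ‖l‖ < δ) : ψ (bfL t n ξ l) = 1 := by
  have h1 : ftL t n ψ μ Φ ξ = ftL t n ψ μ Φ ξ * ψ (bfL t n ξ l) := by
    have h2 := intL_translate709 μ h.haar (fun y => Φ y * ψ (bfL t n ξ y)) l
    have h3 : (fun y : k × k => Φ (y + l) * ψ (bfL t n ξ (y + l)))
        = fun y => (Φ y * ψ (bfL t n ξ y)) * ψ (bfL t n ξ l) := by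
      funext y
      have h4 : Φ (y + l) = Φ y := by
        refine hδ _ _ ?_
        rw [dist_eq_norm]
        have : y + l - y = l := by ring
        rwa [this]
      rw [h4, bfL_add_right709, h.char.2.1, mul_assoc]
    rw [h3, intL_mul_const709] at h2
    exact h2.symm
  have h5 : ftL t n ψ μ Φ ξ * (ψ (bfL t n ξ l) - 1) = 0 := by
    rw [mul_sub, mul_one, ← h1, sub_self]
  rcases mul_eq_zero.1 h5 with h6 | h6
  · exact absurd h6 hξ
  · exact sub_eq_zero.1 h6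

/-- The support of the Fourier transform of a Schwartz--Bruhat function is bounded. -/
theorem ft_support709 [ProperSpace k] {t n : k} {ψ : k → ℂ} {μ : @Measure k (borel k)}
    (h : Ctx t n ψ μ) {Φ : k × k → ℂ} (hΦ : IsSB Φ) :
    ∃ R : ℝ, ∀ ξ : k × k, ftL t n ψ μ Φ ξ ≠ 0 → ‖ξ‖ ≤ R := by
  obtain ⟨δ, hδ, hΦδ⟩ := sb_uniform709 hΦ
  obtain ⟨x₀, hx₀⟩ := h.char.2.2.2
  set M : ℝ := ‖x₀‖ / δ with hM
  have hM0 : 0 ≤ M := by positivity
  set D : k := t ^ 2 - 4 * n with hD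
  have hD0 : D ≠ 0 := h.disc
  have hDpos : 0 < ‖D‖ := norm_pos_iff.2 hD0
  refine ⟨(‖t‖ + ‖2 * n‖ + ‖(2 : k)‖) * M / ‖D‖, fun ξ hξ => ?_⟩
  have hone := fun l hl => psi_bfL_eq_one709 h hΦδ hξ l hl
  -- the two linear forms
  set α : k := 2 * ξ.1 + t * ξ.2 with hα
  set β : k := t * ξ.1 + 2 * n * ξ.2 with hβ
  have hbound : ∀ (c : k) (e : k × k), (∀ s : k, bfL t n ξ (s • e) = c * s) → ‖e‖ ≤ 1 →
      ‖c‖ ≤ M := by
    intro c e he he1
    by_contra hcon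
    rw [not_le] at hcon
    have hc0 : c ≠ 0 := by
      intro h0
      rw [h0, norm_zero] at hcon
      exact absurd hcon (not_lt.2 hM0)
    have hcpos : 0 < ‖c‖ := norm_pos_iff.2 hc0
    have hl : ‖(x₀ / c) • e‖ < δ := by
      rw [norm_smul, norm_div]
      have h1 : ‖x₀‖ / ‖c‖ < δ := by
        rw [div_lt_iff₀ hcpos]
        rw [hM, div_lt_iff₀ hδ] at hcon
        linarith [mul_comm δ ‖c‖]
      have h2 : 0 ≤ ‖x₀‖ / ‖c‖ := by positivity
      calc ‖x₀‖ / ‖c‖ * ‖e‖ ≤ ‖x₀‖ / ‖c‖ * 1 := by gcongr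
        _ = ‖x₀‖ / ‖c‖ := mul_one _
        _ < δ := h1
    have h3 := hone _ hl
    rw [he, mul_div_cancel₀ _ hc0] at h3
    exact hx₀ h3
  have hα' : ‖α‖ ≤ M := by
    refine hbound α (1, 0) (fun s => ?_) ?_
    · rw [bfL_eq709]
      simp only [Prod.smul_mk, smul_eq_mul, mul_one, mul_zero]
      rw [hα]; ring
    · simp [Prod.norm_def]
  have hβ' : ‖β‖ ≤ M := by
    refine hbound β (0, 1) (fun s => ?_) ?_
    · rw [bfL_eq709]
      simp only [Prod.smul_mk, smul_eq_mul, mul_one, mul_zero]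
      rw [hβ]; ring
    · simp [Prod.norm_def]
  have e1 : D * ξ.1 = t * β - 2 * n * α := by rw [hD, hα, hβ]; ring
  have e2 : D * ξ.2 = t * α - 2 * β := by rw [hD, hα, hβ]; ring
  have n1 : ‖D‖ * ‖ξ.1‖ ≤ (‖t‖ + ‖2 * n‖ + ‖(2 : k)‖) * M := by
    rw [← norm_mul, e1]
    have h1 : ‖t * β - 2 * n * α‖ ≤ ‖t‖ * ‖β‖ + ‖2 * n‖ * ‖α‖ := by
      refine (norm_sub_le _ _).trans ?_
      rw [norm_mul, norm_mul]
    have h2 : ‖t‖ * ‖β‖ ≤ ‖t‖ * M := by gcongr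
    have h3 : ‖2 * n‖ * ‖α‖ ≤ ‖2 * n‖ * M := by gcongr
    have h4 : 0 ≤ ‖(2 : k)‖ * M := by positivity
    nlinarith
  have n2 : ‖D‖ * ‖ξ.2‖ ≤ (‖t‖ + ‖2 * n‖ + ‖(2 : k)‖) * M := by
    rw [← norm_mul, e2]
    have h1 : ‖t * α - 2 * β‖ ≤ ‖t‖ * ‖α‖ + ‖(2 : k)‖ * ‖β‖ := by
      refine (norm_sub_le _ _).trans ?_
      rw [norm_mul, norm_mul]
    have h2 : ‖t‖ * ‖α‖ ≤ ‖t‖ * M := by gcongr
    have h3 : ‖(2 : k)‖ * ‖β‖ ≤ ‖(2 : k)‖ * M := by gcongr
    have h4 : 0 ≤ ‖2 * n‖ * M := by positivity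
    nlinarith
  rw [le_div_iff₀ hDpos, Prod.norm_def, max_mul_of_nonneg _ _ hDpos.le]
  refine max_le ?_ ?_
  · rw [mul_comm]; exact n1
  · rw [mul_comm]; exact n2

/-- **FT preserves Schwartz--Bruhat functions** (general form). -/
theorem ftSbP_general709 [IsUltrametricDist k] [ProperSpace k] {t n : k} {ψ : k → ℂ}
    {μ : @Measure k (borel k)} (h : Ctx t n ψ μ) : FtSbP t n ψ μ := by
  intro Φ hΦ
  refine ⟨ft_locallyConstant709 μ h.char hΦ, ?_⟩
  obtain ⟨R, hR⟩ := ft_support709 h hΦ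
  refine HasCompactSupport.intro (isCompact_closedBall (0 : k × k) R) fun ξ hξ => ?_
  by_contra hne
  exact hξ (mem_closedBall_zero_iff.2 (hR ξ hne))

end General


/-! ## 3. The completions `K_v` -/

section Adic

variable (K : Type) [Field K] [NumberField K] (v : HeightOneSpectrum (𝓞 K))

/-- `K_v` is a proper metric space. -/
theorem properSpace_adicCompletion709 : ProperSpace (v.adicCompletion K) := by
  haveI : LocallyCompactSpace (v.adicCompletion K) :=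
    Fermat.Agent.LT.H11.LC.locallyCompactSpace_adicCompletion_h11 K v
  obtain ⟨a, ha, ha0⟩ := Submodule.exists_mem_ne_zero_of_ne_bot v.ne_bot
  set x : v.adicCompletion K := algebraMap K (v.adicCompletion K) (algebraMap (𝓞 K) K a) with hx
  have hx1 : ‖x‖ < 1 := by
    rw [Valued.toNormedField.norm_lt_one_iff]
    have h2 : Valued.v x = v.valuation K (algebraMap (𝓞 K) K a) :=
      HeightOneSpectrum.valuedAdicCompletion_eq_valuation' v _
    rw [h2]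
    exact (HeightOneSpectrum.valuation_lt_one_iff_mem v a).2 ha
  have hx0 : x ≠ 0 := by
    rw [hx, Ne, map_eq_zero, map_eq_zero_iff _ (IsFractionRing.injective (𝓞 K) K)]
    exact ha0
  letI : NontriviallyNormedField (v.adicCompletion K) :=
    { (inferInstance : NormedField (v.adicCompletion K)) with
      non_trivial := ⟨x⁻¹, by
        rw [norm_inv]
        exact (one_lt_inv₀ (norm_pos_iff.2 hx0)).2 hx1⟩ }
  exact ProperSpace.of_locallyCompactSpace (v.adicCompletion K)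

/-- **A2.03.1.1.06.03 FT-SB** (`LF54.LeafFtSb`, VERBATIM). -/
theorem leafFtSb709 : LeafFtSb := by
  intro K _ _ v t n ψ μ h
  haveI : ProperSpace (v.adicCompletion K) := properSpace_adicCompletion709 K v
  exact ftSbP_general709 h

end Adic

end Fermat.Agent.LT.A2.H709
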