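import Mathlib

/-!
# Row LT, tower A2, leaf A2.03.1.1.01 `PsiC` (helper709) -- the arithmetic part

OFF-MAIN.  Mathlib only.

* `trInf709` : the trace functional `∑_u mult(u) Re(x_u)` on `K_∞`; on `K` it is `Tr_{K/ℚ}`
  (`trInf_algebraMap709`), so it takes integral values on `𝓞 K` (`trInf_int709`).
* `exists_trace_not_int709` : at a place `v` which does not divide the different there is
  `k ∈ K`, of valuation `exp 1` at `v`, integral at the other finite places, whose trace is not
  an integer.
-/

set_option autoImplicit false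

open NumberField IsDedekindDomain WithZero
open scoped nonZeroDivisors

noncomputable section

namespace Fermat.Agent.LT.A2.H709

variable (K : Type) [Field K] [NumberField K]

/-- The trace functional on `K_∞`: `∑_u mult(u) · Re(x_u)`. -/
def trInf709 (y : (u : InfinitePlace K) → u.Completion) : ℝ :=
  ∑ u : InfinitePlace K, (u.mult : ℝ) * (InfinitePlace.Completion.extensionEmbedding u (y u)).re

theorem trInf_add709 (y z : (u : InfinitePlace K) → u.Completion) :
    trInf709 K (y + z) = trInf709 K y + trInf709 K z := by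
  unfold trInf709
  rw [← Finset.sum_add_distrib]
  refine Finset.sum_congr rfl fun u _ => ?_
  rw [Pi.add_apply, map_add, Complex.add_re, mul_add]

theorem trInf_zero709 : trInf709 K 0 = 0 := by
  unfold trInf709
  simp

theorem trInf_neg709 (y : (u : InfinitePlace K) → u.Completion) :
    trInf709 K (-y) = - trInf709 K y := by
  have h := trInf_add709 K y (-y)
  rw [add_neg_cancel, trInf_zero709] at h
  linarith

theorem trInf_sub709 (y z : (u : InfinitePlace K) → u.Completion) :
    trInf709 K (y - z) = trInf709 K y - trInf709 K z := by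
  rw [sub_eq_add_neg, trInf_add709, trInf_neg709, sub_eq_add_neg]

theorem continuous_trInf709 : Continuous (trInf709 K) := by
  unfold trInf709
  refine continuous_finsetSum _ fun u _ => ?_
  refine continuous_const.mul ?_
  refine Complex.continuous_re.comp ?_
  exact (InfinitePlace.Completion.isometry_extensionEmbedding u).continuous.comp
    (continuous_apply u)

/-- The sum of the real parts of the conjugates of `k` is the trace. -/
theorem sum_re_embeddings709 (k : K) :
    ∑ φ : K →+* ℂ, (φ k).re = ((Algebra.trace ℚ K k : ℚ) : ℝ) := by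
  have h := trace_eq_sum_embeddings (K := ℚ) (L := K) ℂ (x := k)
  have h2 : ∑ σ : K →ₐ[ℚ] ℂ, σ k = ∑ φ : K →+* ℂ, φ k := by
    refine Fintype.sum_equiv (RingHom.equivRatAlgHom K ℂ).symm _ _ fun σ => ?_
    rfl
  rw [h2] at h
  have h3 := congrArg Complex.re h
  rw [Complex.re_sum] at h3
  rw [← h3]
  simp

theorem trInf_algebraMap709 (k : K) :
    trInf709 K (fun u => algebraMap K u.Completion k) = ((Algebra.trace ℚ K k : ℚ) : ℝ) := by
  classical
  rw [← sum_re_embeddings709]
  unfold trInf709
  rw [← Finset.sum_fiberwise (Finset.univ : Finset (K →+* ℂ)) InfinitePlace.mk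
    (fun φ => (φ k).re)]
  refine Finset.sum_congr rfl fun u _ => ?_
  have hu : ∀ φ ∈ (Finset.univ.filter fun φ : K →+* ℂ => InfinitePlace.mk φ = u),
      (φ k).re = (u.embedding k).re := by
    intro φ hφ
    rw [Finset.mem_filter] at hφ
    have h1 := hφ.2
    rw [← InfinitePlace.mk_embedding u, InfinitePlace.mk_eq_iff] at h1
    rcases h1 with h1 | h1
    · rw [h1]
    · rw [← h1]
      simp [ComplexEmbedding.conjugate_coe_eq]
  rw [Finset.sum_congr rfl hu, Finset.sum_const, InfinitePlace.card_filter_mk_eq, nsmul_eq_mul]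
  congr 2
  simp

theorem trInf_int709 (a : 𝓞 K) :
    ∃ n : ℤ, trInf709 K (fun u => algebraMap K u.Completion (a : K)) = n := by
  refine ⟨Algebra.trace ℤ (𝓞 K) a, ?_⟩
  rw [trInf_algebraMap709, ← Algebra.coe_trace_int]
  simp

/-- At a place which does not divide the different there is an element of `K` of valuation
`exp 1`, integral at the other finite places, whose trace is not an integer. -/
theorem exists_trace_not_int709 (v : HeightOneSpectrum (𝓞 K))
    (hv : ¬ v.asIdeal ∣ differentIdeal ℤ (𝓞 K)) :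
    ∃ k : K, v.valuation K k = exp (1 : ℤ) ∧
      (∀ w : HeightOneSpectrum (𝓞 K), w ≠ v → w.valuation K k ≤ 1) ∧
      ∀ n : ℤ, ((Algebra.trace ℚ K k : ℚ) : ℝ) ≠ n := by
  classical
  rw [Ideal.dvd_iff_le, differentialIdeal_le_iff (K := ℚ) (L := K) v.ne_bot] at hv
  rw [SetLike.not_le_iff_exists] at hv
  obtain ⟨q, hq, hq1⟩ := hv
  rw [Submodule.mem_map] at hq
  obtain ⟨k, hk, rfl⟩ := hq
  have hk' : k ∈ ((v.asIdeal : FractionalIdeal (𝓞 K)⁰ K)⁻¹) := hk
  have hI : (v.asIdeal : FractionalIdeal (𝓞 K)⁰ K) ≠ 0 := by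
    rw [Ne, FractionalIdeal.coeIdeal_eq_zero]
    exact v.ne_bot
  rw [FractionalIdeal.mem_inv_iff hI] at hk'
  have hmul : ∀ b ∈ v.asIdeal, ∃ c : 𝓞 K, (c : K) = k * (b : K) := by
    intro b hb
    have h := hk' (algebraMap (𝓞 K) K b) ((FractionalIdeal.mem_coeIdeal _).2 ⟨b, hb, rfl⟩)
    rw [FractionalIdeal.mem_one_iff] at h
    obtain ⟨c, hc⟩ := h
    exact ⟨c, hc⟩
  have htr : ∀ n : ℤ, ((Algebra.trace ℚ K k : ℚ) : ℝ) ≠ n := by
    intro n hn
    apply hq1
    rw [Submodule.mem_one]
    refine ⟨n, ?_⟩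
    have : ((n : ℚ) : ℝ) = ((Algebra.trace ℚ K k : ℚ) : ℝ) := by rw [hn]; simp
    have h2 : (n : ℚ) = Algebra.trace ℚ K k := by exact_mod_cast this
    simpa using h2
  have hw : ∀ w : HeightOneSpectrum (𝓞 K), w ≠ v → w.valuation K k ≤ 1 := by
    intro w hwv
    have hex : ∃ b ∈ v.asIdeal, b ∉ w.asIdeal := by
      by_contra hcon
      have hle : v.asIdeal ≤ w.asIdeal := fun b hb => by
        by_contra hb'
        exact hcon ⟨b, hb, hb'⟩
      have := (v.isPrime.isMaximal v.ne_bot).eq_of_le (w.isPrime.isMaximal w.ne_bot).ne_top hle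
      exact hwv (HeightOneSpectrum.ext this.symm)
    obtain ⟨b, hb, hbw⟩ := hex
    obtain ⟨c, hc⟩ := hmul b hb
    have h1 : w.valuation K (b : K) = 1 := by
      have h2 := HeightOneSpectrum.valuation_le_one (K := K) w b
      have h3 := (HeightOneSpectrum.valuation_lt_one_iff_mem (K := K) w b).not.2 hbw
      exact le_antisymm h2 (not_lt.1 h3)
    have h4 : w.valuation K (k * (b : K)) ≤ 1 := by
      rw [← hc]
      exact HeightOneSpectrum.valuation_le_one w c
    rwa [map_mul, h1, mul_one] at h4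
  have hvle : v.valuation K k ≤ exp (1 : ℤ) := by
    obtain ⟨ϖ, hϖ⟩ := HeightOneSpectrum.intValuation_exists_uniformizer v
    have hϖmem : ϖ ∈ v.asIdeal := by
      rw [← HeightOneSpectrum.intValuation_lt_one_iff_mem, hϖ, ← exp_zero, exp_lt_exp]
      norm_num
    obtain ⟨c, hc⟩ := hmul ϖ hϖmem
    have h4 : v.valuation K (k * (ϖ : K)) ≤ 1 := by
      rw [← hc]
      exact HeightOneSpectrum.valuation_le_one v c
    rw [map_mul, HeightOneSpectrum.valuation_of_algebraMap, hϖ] at h4
    have h5 : v.valuation K k = v.valuation K k * exp (-1 : ℤ) * exp (1 : ℤ) := by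
      rw [mul_assoc, ← exp_add]
      simp
    rw [h5]
    calc v.valuation K k * exp (-1 : ℤ) * exp (1 : ℤ) ≤ 1 * exp (1 : ℤ) :=
          mul_le_mul_left h4 _
      _ = exp (1 : ℤ) := one_mul _
  have hvgt : 1 < v.valuation K k := by
    by_contra hcon
    rw [not_lt] at hcon
    have hall : ∀ w : HeightOneSpectrum (𝓞 K), w.valuation K k ≤ 1 := by
      intro w
      by_cases hwv : w = v
      · rw [hwv]; exact hcon
      · exact hw w hwv
    obtain ⟨a, ha⟩ := HeightOneSpectrum.mem_integers_of_valuation_le_one K k hall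
    apply htr (Algebra.trace ℤ (𝓞 K) a)
    rw [← ha]
    have := Algebra.coe_trace_int (K := K) a
    rw [← this]
    simp
  refine ⟨k, ?_, hw, htr⟩
  have hne : v.valuation K k ≠ 0 := fun h => by rw [h] at hvgt; exact absurd hvgt (by simp)
  obtain ⟨n, hn⟩ : ∃ n : ℤ, v.valuation K k = exp n := ⟨_, (exp_log hne).symm⟩
  rw [hn] at hvle hvgt ⊢
  rw [exp_le_exp] at hvle
  rw [← exp_zero, exp_lt_exp] at hvgt
  have : n = 1 := by omega
  rw [this]

end Fermat.Agent.LT.A2.H709
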