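import Fermat.Agent.LT.A2.H467.DataSpec
import Fermat.Agent.LT.H767.StrongApprox
import Fermat.Agent.LT.A2.H709.PsiArith

/-!
# Row LT, tower A2, leaf A2.03.1.1.01 `WX467.PsiC` (helper709, registry row 1244)

OFF-MAIN.  Imports: `A2/H467/DataSpec.lean` (helper467@8b34cad8f, sha256 72cb2b55, byte copy),
`H767/StrongApprox.lean` (helper767, sha256 710a865c, byte copy: `𝔸_f = K + ∏ 𝒪_v`) and
`PsiArith.lean` (Mathlib only).

`psiC709 : PsiC` VERBATIM: for every number field there is a continuous unitary character `ψ`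
of `𝔸_K`, trivial on `K`, not trivial, whose local component has conductor `𝒪_v` at every finite
place `v` which does not divide the different of `K / ℚ`.

Construction (no local traces, no `p`-adic fractional parts): `𝔸_K = K + W`,
`W = K_∞ × ∏ 𝒪_v` open, `K ∩ W = 𝓞 K`, and `ψ(k + y) = exp(2πi Tr_∞(y_∞))`,
`Tr_∞ = ∑_u mult(u) Re`, which is `Tr_{K/ℚ}` on `K`, hence integral on `𝓞 K`.
For `x` supported at `v` with `x_v = k ∈ 𝔭_v⁻¹` (integral elsewhere): `ψ(x) = exp(-2πi Tr k)`.
-/

set_option autoImplicit false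

open NumberField IsDedekindDomain WithZero
open scoped nonZeroDivisors

noncomputable section

namespace Fermat.Agent.LT.A2.H709

open Fermat.Agent.LT.H556 Fermat.Agent.LT.A2 Fermat.Agent.LT.A2.WX467

variable (K : Type) [Field K] [NumberField K]

/-- `e(t) = exp(2πi t)`. -/
def e709 (t : ℝ) : ℂ := Complex.exp (2 * Real.pi * Complex.I * t)

theorem e_add709 (s t : ℝ) : e709 (s + t) = e709 s * e709 t := by
  unfold e709
  rw [← Complex.exp_add]
  congr 1
  push_cast
  ring

theorem e_zero709 : e709 0 = 1 := by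
  unfold e709
  simp

theorem e_int709 (n : ℤ) : e709 n = 1 := by
  unfold e709
  rw [Complex.exp_eq_one_iff]
  refine ⟨n, ?_⟩
  push_cast
  ring

theorem norm_e709 (t : ℝ) : ‖e709 t‖ = 1 := by
  unfold e709
  rw [Complex.norm_exp]
  simp

theorem continuous_e709 : Continuous e709 := by
  unfold e709
  fun_prop

theorem e_eq_one709 {t : ℝ} (h : e709 t = 1) : ∃ n : ℤ, t = n := by
  unfold e709 at h
  rw [Complex.exp_eq_one_iff] at h
  obtain ⟨n, hn⟩ := h
  refine ⟨n, ?_⟩
  have h2 : (2 * Real.pi * Complex.I) * (t : ℂ) = (2 * Real.pi * Complex.I) * (n : ℂ) := by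
    rw [hn]; ring
  have h3 : (2 * Real.pi * Complex.I : ℂ) ≠ 0 := by
    simp [Real.pi_ne_zero]
  have h4 := mul_left_cancel₀ h3 h2
  exact_mod_cast h4

/-- The open subgroup `K_∞ × ∏ 𝒪_v` of the adeles. -/
def wInt709 : AddSubgroup (A0.Adl K) where
  carrier := {x | ∀ v : HeightOneSpectrum (𝓞 K), x.2 v ∈ v.adicCompletionIntegers K}
  zero_mem' := fun _ => zero_mem _
  add_mem' := fun ha hb v => add_mem (ha v) (hb v)
  neg_mem' := fun ha v => neg_mem (ha v)

theorem mem_wInt709 (x : A0.Adl K) :
    x ∈ wInt709 K ↔ ∀ v : HeightOneSpectrum (𝓞 K), x.2 v ∈ v.adicCompletionIntegers K :=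
  Iff.rfl

theorem isOpen_wInt709 : IsOpen (wInt709 K : Set (A0.Adl K)) := by
  have h : IsOpen {a : FiniteAdeleRing (𝓞 K) K | ∀ v, a v ∈ v.adicCompletionIntegers K} :=
    RestrictedProduct.isOpen_forall_mem
      (R := fun v : HeightOneSpectrum (𝓞 K) => v.adicCompletion K)
      (A := fun v => (v.adicCompletionIntegers K : Set (v.adicCompletion K)))
      (fun _ => Valued.isOpen_valuationSubring _)
  exact h.preimage continuous_snd

theorem exists_sub_mem_wInt709 (x : A0.Adl K) :
    ∃ k : K, x - algebraMap K (A0.Adl K) k ∈ wInt709 K := by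
  obtain ⟨k, hk⟩ := Fermat.Agent.LT.H767.exists_sub_mem_integers K x.2
  exact ⟨k, fun v => hk v⟩


/-- The infinite part of the adele `x`, as a family. -/
def infPart709 (x : A0.Adl K) : (u : InfinitePlace K) → u.Completion := x.1

theorem infPart_sub709 (x y : A0.Adl K) :
    infPart709 K (x - y) = infPart709 K x - infPart709 K y := rfl

theorem infPart_add709 (x y : A0.Adl K) :
    infPart709 K (x + y) = infPart709 K x + infPart709 K y := rfl

theorem infPart_algebraMap709 (k : K) :
    infPart709 K (algebraMap K (A0.Adl K) k)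
      = fun u : InfinitePlace K => algebraMap K u.Completion k := rfl

theorem continuous_infPart709 : Continuous (infPart709 K) := continuous_fst

/-- A principal adele in `K_∞ × ∏ 𝒪_v` is an integer, so its trace is an integer. -/
theorem trInf_principal_int709 (d : K) (hd : algebraMap K (A0.Adl K) d ∈ wInt709 K) :
    ∃ n : ℤ, trInf709 K (infPart709 K (algebraMap K (A0.Adl K) d)) = n := by
  have hall : ∀ v : HeightOneSpectrum (𝓞 K), v.valuation K d ≤ 1 := by
    intro v
    have h1 := hd v
    rw [HeightOneSpectrum.mem_adicCompletionIntegers] at h1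
    have h2 : Valued.v (algebraMap K (v.adicCompletion K) d) = v.valuation K d :=
      HeightOneSpectrum.valuedAdicCompletion_eq_valuation' v d
    rw [← h2]
    exact h1
  obtain ⟨a, ha⟩ := HeightOneSpectrum.mem_integers_of_valuation_le_one K d hall
  obtain ⟨n, hn⟩ := trInf_int709 K a
  refine ⟨n, ?_⟩
  rw [infPart_algebraMap709, ← ha]
  exact hn

/-- **The character**: `ψ(k + y) = e(Tr_∞ y_∞)` for `k ∈ K`, `y ∈ K_∞ × ∏ 𝒪_v`. -/
def psi709 (x : A0.Adl K) : ℂ :=
  e709 (trInf709 K (infPart709 K
    (x - algebraMap K (A0.Adl K) (Classical.choose (exists_sub_mem_wInt709 K x)))))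

/-- The value of `ψ` does not depend on the decomposition. -/
theorem psi_eq709 (x : A0.Adl K) (k : K) (hk : x - algebraMap K (A0.Adl K) k ∈ wInt709 K) :
    psi709 K x = e709 (trInf709 K (infPart709 K (x - algebraMap K (A0.Adl K) k))) := by
  have h0 := Classical.choose_spec (exists_sub_mem_wInt709 K x)
  set k₀ := Classical.choose (exists_sub_mem_wInt709 K x) with hk₀
  have hd : algebraMap K (A0.Adl K) (k - k₀) ∈ wInt709 K := by
    have h1 := (wInt709 K).sub_mem h0 hk
    have h2 : x - algebraMap K (A0.Adl K) k₀ - (x - algebraMap K (A0.Adl K) k)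
        = algebraMap K (A0.Adl K) (k - k₀) := by
      rw [map_sub]; ring
    rwa [h2] at h1
  obtain ⟨n, hn⟩ := trInf_principal_int709 K (k - k₀) hd
  have h3 : x - algebraMap K (A0.Adl K) k₀
      = (x - algebraMap K (A0.Adl K) k) + algebraMap K (A0.Adl K) (k - k₀) := by
    rw [map_sub]; ring
  unfold psi709
  rw [← hk₀, h3, infPart_add709, trInf_add709, hn, e_add709, e_int709, mul_one]

theorem psi_of_mem709 (x : A0.Adl K) (hx : x ∈ wInt709 K) :
    psi709 K x = e709 (trInf709 K (infPart709 K x)) := by
  have h := psi_eq709 K x 0 (by rwa [map_zero, sub_zero])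
  rwa [map_zero, sub_zero] at h

theorem psi_add709 (x y : A0.Adl K) : psi709 K (x + y) = psi709 K x * psi709 K y := by
  obtain ⟨k, hk⟩ := exists_sub_mem_wInt709 K x
  obtain ⟨l, hl⟩ := exists_sub_mem_wInt709 K y
  have hkl : x + y - algebraMap K (A0.Adl K) (k + l) ∈ wInt709 K := by
    have h1 := (wInt709 K).add_mem hk hl
    have h2 : x - algebraMap K (A0.Adl K) k + (y - algebraMap K (A0.Adl K) l)
        = x + y - algebraMap K (A0.Adl K) (k + l) := by
      rw [map_add]; ring
    rwa [h2] at h1
  rw [psi_eq709 K x k hk, psi_eq709 K y l hl, psi_eq709 K (x + y) (k + l) hkl, ← e_add709,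
    ← trInf_add709, ← infPart_add709]
  congr 3
  rw [map_add]; ring

theorem psi_principal709 (k : K) : psi709 K (algebraMap K (A0.Adl K) k) = 1 := by
  have hk : algebraMap K (A0.Adl K) k - algebraMap K (A0.Adl K) k ∈ wInt709 K := by
    rw [sub_self]; exact (wInt709 K).zero_mem
  rw [psi_eq709 K _ k hk, sub_self]
  have : infPart709 K (0 : A0.Adl K) = 0 := rfl
  rw [this, trInf_zero709, e_zero709]

theorem norm_psi709 (x : A0.Adl K) : ‖psi709 K x‖ = 1 := norm_e709 _

theorem continuous_psi709 : Continuous (psi709 K) := by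
  rw [continuous_iff_continuousAt]
  intro x₀
  have h0 : ContinuousAt (psi709 K) 0 := by
    have hc : Continuous fun x : A0.Adl K => e709 (trInf709 K (infPart709 K x)) :=
      continuous_e709.comp ((continuous_trInf709 K).comp (continuous_infPart709 K))
    refine hc.continuousAt.congr ?_
    have hW : (wInt709 K : Set (A0.Adl K)) ∈ nhds (0 : A0.Adl K) :=
      (isOpen_wInt709 K).mem_nhds (wInt709 K).zero_mem
    filter_upwards [hW] with x hx
    exact (psi_of_mem709 K x hx).symm
  have h1 : psi709 K = fun x => psi709 K x₀ * psi709 K (x - x₀) := by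
    funext x
    rw [← psi_add709]
    congr 1
    ring
  rw [h1]
  refine continuousAt_const.mul ?_
  have h2 : ContinuousAt (fun x : A0.Adl K => x - x₀) x₀ :=
    (continuous_id.sub continuous_const).continuousAt
  have h3 : ContinuousAt (psi709 K) ((fun x : A0.Adl K => x - x₀) x₀) := by
    simpa using h0
  exact ContinuousAt.comp (f := fun x : A0.Adl K => x - x₀) (g := psi709 K) h3 h2


theorem psi_nontriv709 : ∃ x : A0.Adl K, psi709 K x ≠ 1 := by
  set n : ℕ := Module.finrank ℚ K with hn
  have hnpos : 0 < n := Module.finrank_pos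
  set q : ℚ := 1 / (2 * n) with hq
  set k : K := algebraMap ℚ K q with hk
  set x : A0.Adl K := ((algebraMap K (A0.Adl K) k).1, 0) with hx
  have hxW : x ∈ wInt709 K := fun v => zero_mem _
  refine ⟨x, fun h => ?_⟩
  rw [psi_of_mem709 K x hxW] at h
  have h1 : infPart709 K x = fun u : InfinitePlace K => algebraMap K u.Completion k := rfl
  rw [h1, trInf_algebraMap709, hk, Algebra.trace_algebraMap] at h
  obtain ⟨m, hm⟩ := e_eq_one709 h
  rw [← hn, hq] at hm
  have hn0 : (n : ℝ) ≠ 0 := by exact_mod_cast hnpos.ne'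
  have h2 : ((n • (1 / (2 * (n : ℚ))) : ℚ) : ℝ) = 1 / 2 := by
    rw [nsmul_eq_mul]
    push_cast
    field_simp
  rw [h2] at hm
  have h3 : (2 : ℝ) * m = 1 := by rw [← hm]; norm_num
  have h4 : (2 : ℤ) * m = 1 := by exact_mod_cast h3
  omega

theorem isAdeleChar_psi709 : IsAdeleChar (psi709 K) where
  cont := continuous_psi709 K
  map_add := psi_add709 K
  norm_one := norm_psi709 K
  triv := psi_principal709 K
  nontriv := psi_nontriv709 K

theorem goodPsi_psi709 (v : HeightOneSpectrum (𝓞 K))
    (hv : ¬ v.asIdeal ∣ differentIdeal ℤ (𝓞 K)) : GoodPsi (psi709 K) v := by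
  classical
  refine ⟨?_, ?_⟩
  · intro x hx hxv
    have hxW : x ∈ wInt709 K := by
      intro w
      by_cases hw : w = v
      · subst hw; exact hxv
      · rw [hx.2 w hw]; exact zero_mem _
    rw [psi_of_mem709 K x hxW]
    have h1 : infPart709 K x = 0 := by
      funext u
      exact hx.1 u
    rw [h1, trInf_zero709, e_zero709]
  · obtain ⟨k, hkv, hkw, hktr⟩ := exists_trace_not_int709 K v hv
    set xf : FiniteAdeleRing (𝓞 K) K :=
      RestrictedProduct.single (fun w : HeightOneSpectrum (𝓞 K) => w.adicCompletionIntegers K) v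
        (algebraMap K (v.adicCompletion K) k) with hxf
    have hsame : xf v = algebraMap K (v.adicCompletion K) k :=
      RestrictedProduct.single_eq_same _ v _
    have hval : ∀ w : HeightOneSpectrum (𝓞 K),
        Valued.v (algebraMap K (w.adicCompletion K) k) = w.valuation K k := fun w =>
      HeightOneSpectrum.valuedAdicCompletion_eq_valuation' w k
    have hne : ∀ w : HeightOneSpectrum (𝓞 K), w ≠ v → xf w = 0 := fun w hw =>
      RestrictedProduct.single_eq_of_ne _ _ hw
    set x : A0.Adl K := (0, xf) with hx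
    refine ⟨x, ⟨fun w => rfl, fun w hw => hne w hw⟩, ?_, ?_⟩
    · show Valued.v (xf v) = exp (1 : ℤ)
      rw [hsame, hval v, hkv]
    · have hdec : x - algebraMap K (A0.Adl K) k ∈ wInt709 K := by
        intro w
        show xf w - algebraMap K (w.adicCompletion K) k ∈ w.adicCompletionIntegers K
        by_cases hw : w = v
        · subst hw
          rw [hsame, sub_self]
          exact zero_mem _
        · rw [hne w hw, zero_sub, HeightOneSpectrum.mem_adicCompletionIntegers, Valuation.map_neg,
            hval w]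
          exact hkw w hw
      rw [psi_eq709 K x k hdec]
      have h1 : infPart709 K (x - algebraMap K (A0.Adl K) k)
          = - fun u : InfinitePlace K => algebraMap K u.Completion k := by
        rw [infPart_sub709, infPart_algebraMap709]
        have : infPart709 K x = 0 := rfl
        rw [this, zero_sub]
      rw [h1, trInf_neg709, trInf_algebraMap709]
      intro h
      obtain ⟨m, hm⟩ := e_eq_one709 h
      apply hktr (-m)
      push_cast
      linarith

/-- **A2.03.1.1.01 PSI** (`WX467.PsiC`, VERBATIM). -/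
theorem psiC709 : PsiC := by
  intro K _ _ _
  classical
  have hfin : {v : HeightOneSpectrum (𝓞 K) | v.asIdeal ∣ differentIdeal ℤ (𝓞 K)}.Finite :=
    Ideal.finite_factors (differentIdeal_ne_bot)
  refine ⟨psi709 K, isAdeleChar_psi709 K, hfin.toFinset, fun v hv => ?_⟩
  refine goodPsi_psi709 K v ?_
  intro h
  exact hv (hfin.mem_toFinset.2 h)

end Fermat.Agent.LT.A2.H709
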